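/-
S25 / AlgSpec.lift (owner of the block: helper183).  TASK S25-LR1 (proofs: helper265).
Compatibilities between `resᵢ`, `bcᵢ`, `ev₀` on the rings `Rᵢ A = A ⊗[k] Bᵢ`.
-/
import Fermat.Agent.S25.Core

set_option autoImplicit false

universe u

open scoped TensorProduct

namespace Fermat.Agent.S25.Lift

variable {k : Type u} [Field k] (𝔠 : CurveCharts k)
  {A A' : Type u} [CommRing A] [Algebra k A] [CommRing A'] [Algebra k A']

theorem res₁_bc₁ (φ : A →ₐ[k] A') (r : 𝔠.R₁ A) :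
    𝔠.res₁ A' (𝔠.bc₁ φ r) = 𝔠.bc₁₂ φ (𝔠.res₁ A r) := by
  induction r using TensorProduct.induction_on with
  | zero => simp
  | tmul a b => simp [CurveCharts.res₁, CurveCharts.bc₁, CurveCharts.bc₁₂]
  | add x y hx hy => simp only [map_add, hx, hy]

theorem res₂_bc₂ (φ : A →ₐ[k] A') (r : 𝔠.R₂ A) :
    𝔠.res₂ A' (𝔠.bc₂ φ r) = 𝔠.bc₁₂ φ (𝔠.res₂ A r) := by
  induction r using TensorProduct.induction_on with
  | zero => simp
  | tmul a b => simp [CurveCharts.res₂, CurveCharts.bc₂, CurveCharts.bc₁₂]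
  | add x y hx hy => simp only [map_add, hx, hy]

theorem bc₁_xA (φ : A →ₐ[k] A') : 𝔠.bc₁ φ (𝔠.xA A) = 𝔠.xA A' := by
  simp [CurveCharts.bc₁, CurveCharts.xA]

theorem bc₂_yA (φ : A →ₐ[k] A') : 𝔠.bc₂ φ (𝔠.yA A) = 𝔠.yA A' := by
  simp [CurveCharts.bc₂, CurveCharts.yA]

theorem ev₀_bc₂ (φ : A →ₐ[k] A') (r : 𝔠.R₂ A) : 𝔠.ev₀ A' (𝔠.bc₂ φ r) = φ (𝔠.ev₀ A r) := by
  induction r using TensorProduct.induction_on with
  | zero => simp
  | tmul a b => simp [CurveCharts.ev₀, CurveCharts.bc₂]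
  | add x y hx hy => simp only [map_add, hx, hy]

theorem ev₀_algebraMap (a : A) : 𝔠.ev₀ A (algebraMap A (𝔠.R₂ A) a) = a :=
  (𝔠.ev₀ A).commutes a

theorem bc₂_algebraMap (φ : A →ₐ[k] A') (a : A) :
    𝔠.bc₂ φ (algebraMap A (𝔠.R₂ A) a) = algebraMap A' (𝔠.R₂ A') (φ a) := by
  simp [CurveCharts.bc₂, Algebra.TensorProduct.algebraMap_apply]

theorem bc₁_comp {A'' : Type u} [CommRing A''] [Algebra k A''] (φ : A →ₐ[k] A')
    (ψ : A' →ₐ[k] A'') : 𝔠.bc₁ (ψ.comp φ) = (𝔠.bc₁ ψ).comp (𝔠.bc₁ φ) := by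
  apply Algebra.TensorProduct.ext <;> ext <;> simp [CurveCharts.bc₁]

theorem bc₂_comp {A'' : Type u} [CommRing A''] [Algebra k A''] (φ : A →ₐ[k] A')
    (ψ : A' →ₐ[k] A'') : 𝔠.bc₂ (ψ.comp φ) = (𝔠.bc₂ ψ).comp (𝔠.bc₂ φ) := by
  apply Algebra.TensorProduct.ext <;> ext <;> simp [CurveCharts.bc₂]

theorem bc₁₂_comp {A'' : Type u} [CommRing A''] [Algebra k A''] (φ : A →ₐ[k] A')
    (ψ : A' →ₐ[k] A'') : 𝔠.bc₁₂ (ψ.comp φ) = (𝔠.bc₁₂ ψ).comp (𝔠.bc₁₂ φ) := by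
  apply Algebra.TensorProduct.ext <;> ext <;> simp [CurveCharts.bc₁₂]

end Fermat.Agent.S25.Lift
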