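/-
S25 / AlgSpec.lift (owner of the block: helper183).  TASK S25-LT5 (helper142).
Cancellation for base change of triples.
One abstract lemma (`LiftAbs.existsUnique_semilinear`) extends the instance-free universal property of a base change `β : N' → N`
along `f : R' → R` to targets which are modules over an arbitrary `R`-algebra `σ : R → S`; `LiftAbs.isBC_cancel` is the cancellation
statement for one module; it is applied three times, and the commutation with `ρ` follows from the uniqueness part.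
-/
import Fermat.Agent.S25.AlgSpec
import Fermat.Agent.S25.Alg.Lift.RingsCompat

set_option autoImplicit false

universe u

open scoped TensorProduct

namespace Fermat.Agent.S25.LiftAbs

section Abstract

variable {R' R S : Type u} [CommRing R'] [CommRing R] [CommRing S]
  {N' N : Type u} [AddCommGroup N'] [Module R' N'] [AddCommGroup N] [Module R N]

/-- The universal property of a base change `β` along `f`, extended to semilinear maps along any `σ : R → S`. -/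
theorem existsUnique_semilinear (f : R' →+* R) (σ : R →+* S) (h : R' →+* S)
    (hh : ∀ r, h r = σ (f r)) (β : N' →ₛₗ[f] N)
    (hβ : ∀ (Q : Type u) [AddCommGroup Q] [Module R Q] (φ : N' →ₛₗ[f] Q),
      ∃! ψ : N →ₗ[R] Q, ∀ n, ψ (β n) = φ n)
    (Q : Type u) [AddCommGroup Q] [Module S Q] (φ : N' →ₛₗ[h] Q) :
    ∃! u : N →ₛₗ[σ] Q, ∀ n, u (β n) = φ n := by
  let _ : Module R Q := Module.compHom Q σ
  have hsm : ∀ (r : R) (q : Q), r • q = σ r • q := fun _ _ => rfl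
  let φ' : N' →ₛₗ[f] Q :=
    { toFun := φ
      map_add' := φ.map_add
      map_smul' := fun r n => by
        rw [hsm, ← hh]
        exact φ.map_smulₛₗ r n }
  obtain ⟨ψ, hψ, huniq⟩ := hβ Q φ'
  refine ⟨{ toFun := ψ
            map_add' := ψ.map_add
            map_smul' := fun r n => by
              rw [← hsm]
              exact ψ.map_smul r n }, fun n => hψ n, ?_⟩
  intro u hu
  have := huniq { toFun := u
                  map_add' := u.map_add
                  map_smul' := fun r n => by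
                    rw [RingHom.id_apply, hsm]
                    exact u.map_smulₛₗ r n } (fun n => hu n)
  ext n
  exact congrArg (fun (w : N →ₗ[R] Q) => w n) this

/-- Two semilinear maps out of a base change which agree on the image of `β` are equal. -/
theorem semilinear_ext (f : R' →+* R) (σ : R →+* S) (β : N' →ₛₗ[f] N)
    (hβ : ∀ (Q : Type u) [AddCommGroup Q] [Module R Q] (φ : N' →ₛₗ[f] Q),
      ∃! ψ : N →ₗ[R] Q, ∀ n, ψ (β n) = φ n)
    (Q : Type u) [AddCommGroup Q] [Module S Q] (u v : N → Q)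
    (hu_add : ∀ a b, u (a + b) = u a + u b) (hu_smul : ∀ (r : R) a, u (r • a) = σ r • u a)
    (hv_add : ∀ a b, v (a + b) = v a + v b) (hv_smul : ∀ (r : R) a, v (r • a) = σ r • v a)
    (huv : ∀ n, u (β n) = v (β n)) (n : N) : u n = v n := by
  let U : N →ₛₗ[σ] Q := { toFun := u, map_add' := hu_add, map_smul' := hu_smul }
  let V : N →ₛₗ[σ] Q := { toFun := v, map_add' := hv_add, map_smul' := hv_smul }
  let φ : N' →ₛₗ[σ.comp f] Q :=
    { toFun := fun n => u (β n)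
      map_add' := fun a b => by rw [β.map_add, hu_add]
      map_smul' := fun r a => by rw [β.map_smulₛₗ, hu_smul]; rfl }
  obtain ⟨w, _, huniq⟩ := existsUnique_semilinear f σ (σ.comp f) (fun _ => rfl) β hβ Q φ
  have h1 : U = w := huniq U (fun _ => rfl)
  have h2 : V = w := huniq V (fun n => (huv n).symm)
  exact congrArg (fun (w : N →ₛₗ[σ] Q) => w n) (h1.trans h2.symm)

/-- Cancellation for base change of one module. -/
theorem isBC_cancel {N'' : Type u} [AddCommGroup N''] [Module S N'']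
    (f : R' →+* R) (g : R →+* S) (h : R' →+* S) (hh : ∀ r, h r = g (f r))
    (β : N' →ₛₗ[f] N)
    (hβ : ∀ (Q : Type u) [AddCommGroup Q] [Module R Q] (φ : N' →ₛₗ[f] Q),
      ∃! ψ : N →ₗ[R] Q, ∀ n, ψ (β n) = φ n)
    (γ : N' →ₛₗ[h] N'')
    (hγ : ∀ (Q : Type u) [AddCommGroup Q] [Module S Q] (φ : N' →ₛₗ[h] Q),
      ∃! ψ : N'' →ₗ[S] Q, ∀ n, ψ (γ n) = φ n) :
    ∃ δ : N →ₛₗ[g] N'', (∀ n, δ (β n) = γ n) ∧
      ∀ (Q : Type u) [AddCommGroup Q] [Module S Q] (φ : N →ₛₗ[g] Q),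
        ∃! ψ : N'' →ₗ[S] Q, ∀ n, ψ (δ n) = φ n := by
  obtain ⟨δ, hδ, -⟩ := existsUnique_semilinear f g h hh β hβ N'' γ
  refine ⟨δ, hδ, ?_⟩
  intro Q _ _ φ
  let φ' : N' →ₛₗ[h] Q :=
    { toFun := fun n => φ (β n)
      map_add' := fun a b => by rw [β.map_add, φ.map_add]
      map_smul' := fun r a => by rw [β.map_smulₛₗ, φ.map_smulₛₗ, hh] }
  obtain ⟨ψ, hψ, huniq⟩ := hγ Q φ'
  refine ⟨ψ, ?_, ?_⟩
  · intro n
    refine semilinear_ext f g β hβ Q (fun n => ψ (δ n)) (fun n => φ n) ?_ ?_ ?_ ?_ ?_ n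
    · intro a b; simp only [map_add]
    · intro r a; simp only [LinearMap.map_smulₛₗ, RingHom.id_apply]
    · intro a b; simp only [map_add]
    · intro r a; simp only [LinearMap.map_smulₛₗ]
    · intro n'
      simp only [hδ]
      exact hψ n'
  · intro ψ' hψ'
    refine huniq ψ' ?_
    intro n'
    rw [← hδ, hψ']
    rfl

end Abstract

end Fermat.Agent.S25.LiftAbs

namespace Fermat.Agent.S25.Lift

open Triple

variable {k : Type u} [Field k] {𝔠 : CurveCharts k}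
  {A A' : Type u} [CommRing A] [Algebra k A] [CommRing A'] [Algebra k A']

/-- LT5: cancellation for base change. -/
theorem isBC_of_comp {A'' : Type u} [CommRing A''] [Algebra k A''] (π : A' →ₐ[k] A)
    (ψ : A →ₐ[k] A'') (T' : Triple 𝔠 A') (T : Triple 𝔠 A) (T'' : Triple 𝔠 A'')
    (h₁ : IsBC π T' T) (h₂ : IsBC (ψ.comp π) T' T'') : IsBC ψ T T'' := by
  obtain ⟨b⟩ := h₁
  obtain ⟨c⟩ := h₂
  obtain ⟨δ₁, hδ₁, hU₁⟩ := LiftAbs.isBC_cancel (𝔠.bc₁ π).toRingHom (𝔠.bc₁ ψ).toRingHom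
    (𝔠.bc₁ (ψ.comp π)).toRingHom (fun r => by rw [bc₁_comp]; rfl) b.β₁ b.isBC₁ c.β₁ c.isBC₁
  obtain ⟨δ₂, hδ₂, hU₂⟩ := LiftAbs.isBC_cancel (𝔠.bc₂ π).toRingHom (𝔠.bc₂ ψ).toRingHom
    (𝔠.bc₂ (ψ.comp π)).toRingHom (fun r => by rw [bc₂_comp]; rfl) b.β₂ b.isBC₂ c.β₂ c.isBC₂
  obtain ⟨δ₁₂, hδ₁₂, hU₁₂⟩ := LiftAbs.isBC_cancel (𝔠.bc₁₂ π).toRingHom (𝔠.bc₁₂ ψ).toRingHom
    (𝔠.bc₁₂ (ψ.comp π)).toRingHom (fun r => by rw [bc₁₂_comp]; rfl) b.β₁₂ b.isBC₁₂ c.β₁₂ c.isBC₁₂
  refine ⟨{ β₁ := δ₁, β₂ := δ₂, β₁₂ := δ₁₂, comm₁ := ?_, comm₂ := ?_,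
            isBC₁ := hU₁, isBC₂ := hU₂, isBC₁₂ := hU₁₂ }⟩
  · intro n
    refine LiftAbs.semilinear_ext (𝔠.bc₁ π).toRingHom
      ((𝔠.bc₁₂ ψ).toRingHom.comp (𝔠.res₁ A).toRingHom) b.β₁ b.isBC₁ T''.N₁₂
      (fun n => δ₁₂ (T.ρ₁ n)) (fun n => T''.ρ₁ (δ₁ n)) ?_ ?_ ?_ ?_ ?_ n
    · intro x y; simp only [map_add]
    · intro r x; simp only [LinearMap.map_smulₛₗ]; rfl
    · intro x y; simp only [map_add]
    · intro r x
      simp only [LinearMap.map_smulₛₗ]
      congr 1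
      exact res₁_bc₁ 𝔠 ψ r
    · intro n'
      simp only [hδ₁, ← b.comm₁, hδ₁₂, c.comm₁]
  · intro n
    refine LiftAbs.semilinear_ext (𝔠.bc₂ π).toRingHom
      ((𝔠.bc₁₂ ψ).toRingHom.comp (𝔠.res₂ A).toRingHom) b.β₂ b.isBC₂ T''.N₁₂
      (fun n => δ₁₂ (T.ρ₂ n)) (fun n => T''.ρ₂ (δ₂ n)) ?_ ?_ ?_ ?_ ?_ n
    · intro x y; simp only [map_add]
    · intro r x; simp only [LinearMap.map_smulₛₗ]; rfl
    · intro x y; simp only [map_add]
    · intro r x
      simp only [LinearMap.map_smulₛₗ]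
      congr 1
      exact res₂_bc₂ 𝔠 ψ r
    · intro n'
      simp only [hδ₂, ← b.comm₂, hδ₁₂, c.comm₂]

end Fermat.Agent.S25.Lift
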