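/-
S25 / AlgSpec.lift (owner of the block: helper183).  TASK S25-LG1 (proofs: helper145).
PROOF SKETCH.  Work with `letI := f.toAlgebra`, `letI := Module.compHom N f` (tower by rfl), `ρ` as an `R`-linear map `ρL`.
LG1: `θ : S ⊗[R] M →ₗ[S] N`, `s ⊗ m ↦ s • ρ m` (`TensorProduct.AlgebraTensorModule.lift` or `IsBaseChange.lift`) is surjective by
`hspan`, hence bijective (`Module.Invertible.bijective_of_surjective`, `S ⊗[R] M` is invertible over `S`).  So `ρL` is a base change,
hence `IsLocalizedModule (Submonoid.powers x) ρL` (`isLocalizedModule_iff_isBaseChange`); then `IsLocalizedModule.surj` and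
`IsLocalizedModule.exists_of_eq` (with `ρ n₁ = ρ 0`) give the two fields.
LG2: conversely the two fields give `IsLocalizedModule (Submonoid.powers x) ρL` (`map_units`: `f x` is a unit of `S`), then
`Module.Invertible.of_isLocalization`.
-/
import Mathlib

set_option autoImplicit false

universe u

open scoped TensorProduct

namespace Fermat.Agent.S25.LiftAbs

/-- Elementary form of "`ρ` exhibits `N` as the localisation `M[1/x]`", for a map semilinear along
`f : R → S` (think `S = R[1/x]`).  These are the fields of `Triple.IsQC`. -/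
structure IsLocElem {R S : Type u} [CommRing R] [CommRing S] (f : R →+* S) (x : R)
    {M N : Type u} [AddCommGroup M] [Module R M] [AddCommGroup N] [Module S N]
    (ρ : M →ₛₗ[f] N) : Prop where
  surj : ∀ n : N, ∃ (m : ℕ) (n₁ : M), ρ n₁ = (f x) ^ m • n
  inj : ∀ n₁ : M, ρ n₁ = 0 → ∃ m : ℕ, x ^ m • n₁ = 0

variable {R S : Type u} [CommRing R] [CommRing S] (f : R →+* S) (x : R)
  {M N : Type u} [AddCommGroup M] [Module R M] [AddCommGroup N] [Module S N]

/-- LG1: if `S = R[1/x]`, `M` and `N` are invertible and the `S`-span of `ρ M` is `N`, then `ρ` is a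
localisation map. -/
theorem isLocElem_of_span_eq_top
    (hloc : letI := f.toAlgebra; IsLocalization.Away x S)
    [Module.Invertible R M] [Module.Invertible S N] (ρ : M →ₛₗ[f] N)
    (hspan : Submodule.span S (Set.range ρ) = ⊤) : IsLocElem f x ρ := by
  letI : Algebra R S := f.toAlgebra
  letI : Module R N := Module.compHom N f
  haveI : IsScalarTower R S N := ⟨fun r s n => by
    show (f r * s) • n = f r • (s • n)
    rw [mul_smul]⟩
  haveI : IsLocalization.Away x S := hloc
  let ρL : M →ₗ[R] N :=
    { toFun := ρ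
      map_add' := ρ.map_add
      map_smul' := fun r m => ρ.map_smulₛₗ r m }
  let θ : S ⊗[R] M →ₗ[S] N :=
    TensorProduct.AlgebraTensorModule.lift
      ((LinearMap.lsmul S (M →ₗ[R] N)).flip ρL)
  have hθ : ∀ (s : S) (m : M), θ (s ⊗ₜ m) = s • ρ m := fun s m => rfl
  have hsurj : Function.Surjective θ := by
    rw [← LinearMap.range_eq_top, eq_top_iff, ← hspan, Submodule.span_le]
    rintro _ ⟨m, rfl⟩
    exact ⟨1 ⊗ₜ m, by rw [hθ, one_smul]⟩
  have hbij : Function.Bijective θ := Module.Invertible.bijective_of_surjective hsurj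
  have hb : IsBaseChange S ρL :=
    IsBaseChange.of_equiv (LinearEquiv.ofBijective θ hbij) (fun m => by
      show θ (1 ⊗ₜ m) = ρ m
      rw [hθ, one_smul])
  haveI : IsLocalizedModule (Submonoid.powers x) ρL :=
    (isLocalizedModule_iff_isBaseChange (Submonoid.powers x) S ρL).2 hb
  refine ⟨fun n => ?_, fun n₁ h => ?_⟩
  · obtain ⟨⟨m, ⟨_, k, rfl⟩⟩, hm⟩ := IsLocalizedModule.surj (Submonoid.powers x) ρL n
    refine ⟨k, m, ?_⟩
    have : (x ^ k) • n = ρL m := hm
    show ρL m = _
    rw [← this]
    show f (x ^ k) • n = _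
    rw [map_pow]
  · have h0 : ρL n₁ = ρL 0 := by
      rw [map_zero]; exact h
    obtain ⟨⟨_, k, rfl⟩, hk⟩ := IsLocalizedModule.exists_of_eq (S := Submonoid.powers x) h0
    refine ⟨k, ?_⟩
    have : (x ^ k) • n₁ = (x ^ k) • (0 : M) := hk
    rw [this, smul_zero]

/-- LG2: a localisation of an invertible module is invertible. -/
theorem invertible_of_isLocElem
    (hloc : letI := f.toAlgebra; IsLocalization.Away x S)
    [Module.Invertible R M] (ρ : M →ₛₗ[f] N) (hρ : IsLocElem f x ρ) : Module.Invertible S N := by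
  letI : Algebra R S := f.toAlgebra
  letI : Module R N := Module.compHom N f
  haveI : IsScalarTower R S N := ⟨fun r s n => by
    show (f r * s) • n = f r • (s • n)
    rw [mul_smul]⟩
  haveI : IsLocalization.Away x S := hloc
  let ρL : M →ₗ[R] N :=
    { toFun := ρ
      map_add' := ρ.map_add
      map_smul' := fun r m => ρ.map_smulₛₗ r m }
  have hunit : IsUnit (f x) := IsLocalization.Away.algebraMap_isUnit (S := S) x
  haveI : IsLocalizedModule (Submonoid.powers x) ρL :=
    { map_units := by
        rintro ⟨_, k, rfl⟩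
        have hu : IsUnit (f (x ^ k)) := by rw [map_pow]; exact hunit.pow k
        rw [Module.End.isUnit_iff]
        constructor
        · intro a b hab
          have hab' : f (x ^ k) • a = f (x ^ k) • b := hab
          exact hu.smul_left_cancel.1 hab'
        · intro b
          obtain ⟨u, hu'⟩ := hu
          refine ⟨(↑u⁻¹ : S) • b, ?_⟩
          show f (x ^ k) • ((↑u⁻¹ : S) • b) = b
          rw [← hu', smul_smul, Units.mul_inv, one_smul]
      surj := by
        intro n
        obtain ⟨k, m, hm⟩ := hρ.surj n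
        refine ⟨⟨m, ⟨x ^ k, k, rfl⟩⟩, ?_⟩
        show f (x ^ k) • n = ρ m
        rw [hm, map_pow]
      exists_of_eq := by
        intro a b hab
        have h0 : ρ (a - b) = 0 := by
          rw [map_sub]
          exact sub_eq_zero.2 hab
        obtain ⟨k, hk⟩ := hρ.inj _ h0
        refine ⟨⟨x ^ k, k, rfl⟩, ?_⟩
        show x ^ k • a = x ^ k • b
        rw [smul_sub] at hk
        exact sub_eq_zero.1 hk }
  exact Module.Invertible.of_isLocalization (Submonoid.powers x) ρL

end Fermat.Agent.S25.LiftAbs
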