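/-
S25 / AlgSpec.lift (owner of the block: helper183).  Nakayama for square-zero ideals.
-/
import Mathlib

set_option autoImplicit false

universe u

open scoped TensorProduct

namespace Fermat.Agent.S25.LiftAbs

variable {R : Type*} [CommRing R] {I : Ideal R} {M : Type*} [AddCommGroup M] [Module R M]

theorem eq_top_of_sup_smul_top (hI : I ^ 2 = ⊥) (E : Submodule R M)
    (h : E ⊔ I • (⊤ : Submodule R M) = ⊤) : E = ⊤ := by
  have h2 : I • (⊤ : Submodule R M) ≤ E := by
    conv_lhs => rw [← h]
    rw [Submodule.smul_sup, ← mul_smul, ← pow_two, hI, Submodule.bot_smul, sup_bot_eq]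
    exact Submodule.smul_le_right
  rw [← h]
  exact (sup_eq_left.mpr h2).symm

theorem eq_bot_of_le_smul (hI : I ^ 2 = ⊥) (K : Submodule R M) (h : K ≤ I • K) : K = ⊥ := by
  rw [eq_bot_iff]
  calc K ≤ I • K := h
    _ ≤ I • (I • K) := Submodule.smul_mono le_rfl h
    _ = ⊥ := by rw [← mul_smul, ← pow_two, hI, Submodule.bot_smul]

end Fermat.Agent.S25.LiftAbs
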