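/-
S25 / AlgSpec.lift (owner of the block: helper183).  TASK S25-LG3.
PROOF SKETCH.  LG3: make `N₁₂'` and `N₁₂` into `R₂'`-modules by `Module.compHom _ res'` and
`Module.compHom _ (bc₁₂.comp res')`; `β₁₂` and `ρ ∘ β₂` become `R₂'`-linear (use `hsq`);
`Module.projective_lifting_property`; repackage.
LG4: `E := span R₁₂' (range ρ')`.  For `v : N₁₂'`, `β₁₂ v ∈ span R₁₂ (range ρ)`; by `Submodule.span_induction` (lifting scalars through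
`hbc₁₂` and elements of `N₂` through `hβ₂`) there is `w ∈ E` with `β₁₂ w = β₁₂ v`; so `v - w ∈ ker • ⊤`, i.e.
`E ⊔ ker bc₁₂ • ⊤ = ⊤`; conclude by `eq_top_of_sup_smul_top`.
-/
import Fermat.Agent.S25.Alg.Lift.Nak

set_option autoImplicit false

universe u

open scoped TensorProduct

namespace Fermat.Agent.S25.LiftAbs

variable {R₂' R₁₂' R₂ R₁₂ : Type u} [CommRing R₂'] [CommRing R₁₂'] [CommRing R₂] [CommRing R₁₂]
  (res' : R₂' →+* R₁₂') (res : R₂ →+* R₁₂) (bc : R₂' →+* R₂) (bc₁₂ : R₁₂' →+* R₁₂)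
  {N₂' N₁₂' N₂ N₁₂ : Type u} [AddCommGroup N₂'] [Module R₂' N₂'] [AddCommGroup N₁₂']
  [Module R₁₂' N₁₂'] [AddCommGroup N₂] [Module R₂ N₂] [AddCommGroup N₁₂] [Module R₁₂ N₁₂]

/-- LG3: lifting the map (projectivity of `N₂'`). -/
theorem exists_semilinear_lift (hsq : ∀ r, res (bc r) = bc₁₂ (res' r))
    [Module.Projective R₂' N₂']
    (β₂ : N₂' →ₛₗ[bc] N₂) (β₁₂ : N₁₂' →ₛₗ[bc₁₂] N₁₂) (hβ₁₂ : Function.Surjective β₁₂)
    (ρ : N₂ →ₛₗ[res] N₁₂) :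
    ∃ ρ' : N₂' →ₛₗ[res'] N₁₂', ∀ n, β₁₂ (ρ' n) = ρ (β₂ n) := by
  letI i1 : Module R₂' N₁₂' := Module.compHom _ res'
  letI i2 : Module R₂' N₁₂ := Module.compHom _ (bc₁₂.comp res')
  let f : N₁₂' →ₗ[R₂'] N₁₂ :=
    { toFun := β₁₂
      map_add' := β₁₂.map_add
      map_smul' := fun r v => by
        change β₁₂ (res' r • v) = bc₁₂ (res' r) • β₁₂ v
        exact β₁₂.map_smulₛₗ _ _ }
  let g : N₂' →ₗ[R₂'] N₁₂ :=
    { toFun := fun n => ρ (β₂ n)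
      map_add' := fun a b => by rw [β₂.map_add, ρ.map_add]
      map_smul' := fun r n => by
        change ρ (β₂ (r • n)) = bc₁₂ (res' r) • ρ (β₂ n)
        rw [β₂.map_smulₛₗ, ρ.map_smulₛₗ, hsq] }
  obtain ⟨h, hh⟩ := Module.projective_lifting_property f g hβ₁₂
  refine ⟨{ toFun := h, map_add' := h.map_add, map_smul' := fun r n => ?_ }, fun n => ?_⟩
  · exact h.map_smul r n
  · exact LinearMap.congr_fun hh n

/-- LG4: any lift of a generating map is generating (Nakayama). -/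
theorem span_range_eq_top_of_lift (hbc₁₂ : Function.Surjective bc₁₂)
    (hI : RingHom.ker bc₁₂ ^ 2 = ⊥)
    (β₂ : N₂' →ₛₗ[bc] N₂) (hβ₂ : Function.Surjective β₂)
    (β₁₂ : N₁₂' →ₛₗ[bc₁₂] N₁₂)
    (hk : ∀ v, β₁₂ v = 0 → v ∈ RingHom.ker bc₁₂ • (⊤ : Submodule R₁₂' N₁₂'))
    (ρ : N₂ →ₛₗ[res] N₁₂) (hρ : Submodule.span R₁₂ (Set.range ρ) = ⊤)
    (ρ' : N₂' →ₛₗ[res'] N₁₂') (hρ' : ∀ n, β₁₂ (ρ' n) = ρ (β₂ n)) :
    Submodule.span R₁₂' (Set.range ρ') = ⊤ := by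
  apply eq_top_of_sup_smul_top hI
  rw [eq_top_iff]
  intro v _
  have key : ∀ z ∈ Submodule.span R₁₂ (Set.range ρ),
      ∃ w ∈ Submodule.span R₁₂' (Set.range ρ'), β₁₂ w = z := by
    intro z hz
    induction hz using Submodule.span_induction with
    | mem x hx =>
      obtain ⟨n, rfl⟩ := hx
      obtain ⟨n', rfl⟩ := hβ₂ n
      exact ⟨ρ' n', Submodule.subset_span ⟨n', rfl⟩, hρ' n'⟩
    | zero => exact ⟨0, Submodule.zero_mem _, map_zero _⟩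
    | add x y _ _ hx hy =>
      obtain ⟨w₁, hw₁, rfl⟩ := hx
      obtain ⟨w₂, hw₂, rfl⟩ := hy
      exact ⟨w₁ + w₂, Submodule.add_mem _ hw₁ hw₂, map_add _ _ _⟩
    | smul a x _ hx =>
      obtain ⟨w, hw, rfl⟩ := hx
      obtain ⟨a', rfl⟩ := hbc₁₂ a
      exact ⟨a' • w, Submodule.smul_mem _ _ hw, β₁₂.map_smulₛₗ _ _⟩
  obtain ⟨w, hw, hwv⟩ := key (β₁₂ v) (by rw [hρ]; trivial)
  have hvw : v - w ∈ RingHom.ker bc₁₂ • (⊤ : Submodule R₁₂' N₁₂') :=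
    hk _ (by rw [map_sub, hwv, sub_self])
  have : v = w + (v - w) := by abel
  rw [this]
  exact Submodule.add_mem_sup hw hvw

end Fermat.Agent.S25.LiftAbs
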