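/-
S25 / AlgSpec.lift (owner: helper183).  Lifting a localisation map through a square of rings whose
vertical maps are surjections with square-zero kernel.
-/
import Fermat.Agent.S25.Alg.Lift.Loc
import Fermat.Agent.S25.Alg.Lift.Map

set_option autoImplicit false

universe u

open scoped TensorProduct

namespace Fermat.Agent.S25.LiftAbs

variable {R₂' R₁₂' R₂ R₁₂ : Type u} [CommRing R₂'] [CommRing R₁₂'] [CommRing R₂] [CommRing R₁₂]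
  (res' : R₂' →+* R₁₂') (res : R₂ →+* R₁₂) (bc : R₂' →+* R₂) (bc₁₂ : R₁₂' →+* R₁₂)
  {N₂' N₁₂' N₂ N₁₂ : Type u} [AddCommGroup N₂'] [Module R₂' N₂'] [AddCommGroup N₁₂']
  [Module R₁₂' N₁₂'] [AddCommGroup N₂] [Module R₂ N₂] [AddCommGroup N₁₂] [Module R₁₂ N₁₂]

/-- LG5 (assembly of LG1, LG3, LG4): lifting a localisation map. -/
theorem exists_glue_lift (hsq : ∀ r, res (bc r) = bc₁₂ (res' r))
    (hbc₁₂ : Function.Surjective bc₁₂) (hI : RingHom.ker bc₁₂ ^ 2 = ⊥)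
    (y' : R₂') (hloc : letI := res'.toAlgebra; IsLocalization.Away y' R₁₂')
    (hunit : IsUnit (res (bc y')))
    [Module.Invertible R₂' N₂'] [Module.Invertible R₁₂' N₁₂']
    (β₂ : N₂' →ₛₗ[bc] N₂) (hβ₂ : Function.Surjective β₂)
    (β₁₂ : N₁₂' →ₛₗ[bc₁₂] N₁₂) (hβ₁₂ : Function.Surjective β₁₂)
    (hk : ∀ v, β₁₂ v = 0 → v ∈ RingHom.ker bc₁₂ • (⊤ : Submodule R₁₂' N₁₂'))
    (ρ : N₂ →ₛₗ[res] N₁₂) (hρ : IsLocElem res (bc y') ρ) :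
    ∃ ρ' : N₂' →ₛₗ[res'] N₁₂', (∀ n, β₁₂ (ρ' n) = ρ (β₂ n)) ∧ IsLocElem res' y' ρ' := by
  obtain ⟨ρ', hρ'⟩ := exists_semilinear_lift res' res bc bc₁₂ hsq β₂ β₁₂ hβ₁₂ ρ
  refine ⟨ρ', hρ', isLocElem_of_span_eq_top res' y' hloc ρ' ?_⟩
  refine span_range_eq_top_of_lift res' res bc bc₁₂ hbc₁₂ hI β₂ hβ₂ β₁₂ hk ρ ?_ ρ' hρ'
  rw [eq_top_iff]
  intro n _
  obtain ⟨m, n₁, h⟩ := hρ.surj n
  obtain ⟨u, hu⟩ := hunit
  have : n = (↑(u⁻¹ ^ m) : R₁₂) • ρ n₁ := by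
    rw [h, ← hu, smul_smul, ← Units.val_pow_eq_pow_val, ← Units.val_mul, inv_pow,
      inv_mul_cancel, Units.val_one, one_smul]
  rw [this]
  exact Submodule.smul_mem _ _ (Submodule.subset_span ⟨n₁, rfl⟩)

end Fermat.Agent.S25.LiftAbs
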