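/-
S25 / AlgSpec.lift (owner of the block: helper183).  TASK S25-LR2.
Surjectivity and kernels of `bcᵢ φ = Algebra.TensorProduct.map φ (AlgHom.id k Bᵢ)` for surjective `φ`.
PROOFS: `TensorProduct.map_surjective` / `Algebra.TensorProduct.rTensor_ker` (kernel of `map f id` is
`(ker f).map includeLeft` for surjective `f`); `algebraMap A (A ⊗[k] B) = includeLeft`.
-/
import Fermat.Agent.S25.Core

set_option autoImplicit false

universe u

open scoped TensorProduct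

namespace Fermat.Agent.S25.Lift

variable {k : Type u} [Field k] (𝔠 : CurveCharts k)
  {A A' : Type u} [CommRing A] [Algebra k A] [CommRing A'] [Algebra k A']

theorem bc₁_surjective (φ : A →ₐ[k] A') (hφ : Function.Surjective φ) :
    Function.Surjective (𝔠.bc₁ φ) :=
  Algebra.TensorProduct.map_surjective φ (AlgHom.id k _) hφ Function.surjective_id

theorem bc₂_surjective (φ : A →ₐ[k] A') (hφ : Function.Surjective φ) :
    Function.Surjective (𝔠.bc₂ φ) :=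
  Algebra.TensorProduct.map_surjective φ (AlgHom.id k _) hφ Function.surjective_id

theorem bc₁₂_surjective (φ : A →ₐ[k] A') (hφ : Function.Surjective φ) :
    Function.Surjective (𝔠.bc₁₂ φ) :=
  Algebra.TensorProduct.map_surjective φ (AlgHom.id k _) hφ Function.surjective_id

theorem ker_bc₁ (φ : A →ₐ[k] A') (hφ : Function.Surjective φ) :
    RingHom.ker (𝔠.bc₁ φ).toRingHom =
      (RingHom.ker φ.toRingHom).map (algebraMap A (𝔠.R₁ A)) :=
  Algebra.TensorProduct.rTensor_ker φ hφ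

theorem ker_bc₂ (φ : A →ₐ[k] A') (hφ : Function.Surjective φ) :
    RingHom.ker (𝔠.bc₂ φ).toRingHom =
      (RingHom.ker φ.toRingHom).map (algebraMap A (𝔠.R₂ A)) :=
  Algebra.TensorProduct.rTensor_ker φ hφ

theorem ker_bc₁₂ (φ : A →ₐ[k] A') (hφ : Function.Surjective φ) :
    RingHom.ker (𝔠.bc₁₂ φ).toRingHom =
      (RingHom.ker φ.toRingHom).map (algebraMap A (𝔠.R₁₂ A)) :=
  Algebra.TensorProduct.rTensor_ker φ hφ

theorem ker_bc₁_sq (φ : A →ₐ[k] A') (hφ : Function.Surjective φ)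
    (hI : RingHom.ker φ.toRingHom ^ 2 = ⊥) : RingHom.ker (𝔠.bc₁ φ).toRingHom ^ 2 = ⊥ := by
  rw [ker_bc₁ 𝔠 φ hφ, ← Ideal.map_pow, hI, Ideal.map_bot]

theorem ker_bc₂_sq (φ : A →ₐ[k] A') (hφ : Function.Surjective φ)
    (hI : RingHom.ker φ.toRingHom ^ 2 = ⊥) : RingHom.ker (𝔠.bc₂ φ).toRingHom ^ 2 = ⊥ := by
  rw [ker_bc₂ 𝔠 φ hφ, ← Ideal.map_pow, hI, Ideal.map_bot]

theorem ker_bc₁₂_sq (φ : A →ₐ[k] A') (hφ : Function.Surjective φ)
    (hI : RingHom.ker φ.toRingHom ^ 2 = ⊥) : RingHom.ker (𝔠.bc₁₂ φ).toRingHom ^ 2 = ⊥ := by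
  rw [ker_bc₁₂ 𝔠 φ hφ, ← Ideal.map_pow, hI, Ideal.map_bot]

end Fermat.Agent.S25.Lift
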