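/-
S25 / AlgSpec.lift (owner of the block: helper183).  TASK S25-LR3 (proved by helper126).
`R₁₂ A = (R₁ A)[1/x] = (R₂ A)[1/y]`: base change of the localisations `𝔠.away₁`, `𝔠.away₂`.
The proof is Mathlib's `IsLocalization.tensorProduct_tensorProduct_right`.
-/
import Fermat.Agent.S25.Core

set_option autoImplicit false

universe u

open scoped TensorProduct

namespace Fermat.Agent.S25.Lift

variable {k : Type u} [Field k] (𝔠 : CurveCharts k) (A : Type u) [CommRing A] [Algebra k A]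

theorem isUnit_res₁_xA : IsUnit (𝔠.res₁ A (𝔠.xA A)) := by
  refine IsUnit.of_mul_eq_one ((1 : A) ⊗ₜ[k] algebraMap 𝔠.B₂ 𝔠.B₁₂ 𝔠.y) ?_
  simp [CurveCharts.res₁, CurveCharts.xA, 𝔠.xy]
  rfl

theorem isUnit_res₂_yA : IsUnit (𝔠.res₂ A (𝔠.yA A)) := by
  refine IsUnit.of_mul_eq_one ((1 : A) ⊗ₜ[k] algebraMap 𝔠.B₁ 𝔠.B₁₂ 𝔠.x) ?_
  simp [CurveCharts.res₂, CurveCharts.yA, mul_comm, 𝔠.xy]
  rfl

theorem isLocalization_res₁ :
    letI := (𝔠.res₁ A).toRingHom.toAlgebra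
    IsLocalization.Away (𝔠.xA A) (𝔠.R₁₂ A) := by
  letI := (𝔠.res₁ A).toRingHom.toAlgebra
  haveI : IsScalarTower A (𝔠.R₁ A) (𝔠.R₁₂ A) :=
    .of_algebraMap_eq' (by ext a; exact ((𝔠.res₁ A).commutes a).symm)
  haveI : IsLocalization (Submonoid.powers 𝔠.x) 𝔠.B₁₂ := 𝔠.away₁
  have h := IsLocalization.tensorProduct_tensorProduct_right k A (Submonoid.powers 𝔠.x) 𝔠.B₁₂
    (by
      ext b
      change 𝔠.res₁ A ((1 : A) ⊗ₜ[k] b) = (1 : A) ⊗ₜ[k] algebraMap 𝔠.B₁ 𝔠.B₁₂ b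
      simp [CurveCharts.res₁])
  rw [Submonoid.map_powers] at h
  exact h

theorem isLocalization_res₂ :
    letI := (𝔠.res₂ A).toRingHom.toAlgebra
    IsLocalization.Away (𝔠.yA A) (𝔠.R₁₂ A) := by
  letI := (𝔠.res₂ A).toRingHom.toAlgebra
  haveI : IsScalarTower A (𝔠.R₂ A) (𝔠.R₁₂ A) :=
    .of_algebraMap_eq' (by ext a; exact ((𝔠.res₂ A).commutes a).symm)
  haveI : IsLocalization (Submonoid.powers 𝔠.y) 𝔠.B₁₂ := 𝔠.away₂
  have h := IsLocalization.tensorProduct_tensorProduct_right k A (Submonoid.powers 𝔠.y) 𝔠.B₁₂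
    (by
      ext b
      change 𝔠.res₂ A ((1 : A) ⊗ₜ[k] b) = (1 : A) ⊗ₜ[k] algebraMap 𝔠.B₂ 𝔠.B₁₂ b
      simp [CurveCharts.res₂])
  rw [Submonoid.map_powers] at h
  exact h

end Fermat.Agent.S25.Lift
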