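/-
S25 / AlgSpec.lift (owner of the block: helper183).  TASK S25-LA2.
PROOF SKETCH.  `TensorProduct.map_ker` (kernel of the tensor product of two surjections is
`range (lTensor _ (ker g').subtype) ⊔ range (rTensor _ (ker g).subtype)`); then for `n ∈ ker βN ≤ I • ⊤` use
`Submodule.smul_induction_on`: `m ⊗ₜ (i • n) = i • (m ⊗ₜ n) ∈ I • ⊤`; tensors: `TensorProduct.induction_on`.
-/
import Mathlib

set_option autoImplicit false

universe u

open scoped TensorProduct

namespace Fermat.Agent.S25.LiftAbs

variable {R' : Type u} [CommRing R']

/-- LA2: the kernel of `M' ⊗ N' → M ⊗ N`. -/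
theorem ker_map_le {M' N' M N : Type u} [AddCommGroup M'] [Module R' M'] [AddCommGroup N']
    [Module R' N'] [AddCommGroup M] [Module R' M] [AddCommGroup N] [Module R' N]
    (I : Ideal R') (βM : M' →ₗ[R'] M) (βN : N' →ₗ[R'] N)
    (hM : Function.Surjective βM) (hN : Function.Surjective βN)
    (kM : LinearMap.ker βM ≤ I • (⊤ : Submodule R' M'))
    (kN : LinearMap.ker βN ≤ I • (⊤ : Submodule R' N')) :
    LinearMap.ker (TensorProduct.map βM βN) ≤ I • (⊤ : Submodule R' (M' ⊗[R'] N')) := by
  have eM : Function.Exact (LinearMap.ker βM).subtype βM := by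
    intro x
    constructor
    · intro hx; exact ⟨⟨x, hx⟩, rfl⟩
    · rintro ⟨y, rfl⟩; exact y.2
  have eN : Function.Exact (LinearMap.ker βN).subtype βN := by
    intro x
    constructor
    · intro hx; exact ⟨⟨x, hx⟩, rfl⟩
    · rintro ⟨y, rfl⟩; exact y.2
  rw [TensorProduct.map_ker eM hM eN hN]
  refine sup_le ?_ ?_
  · rintro _ ⟨t, rfl⟩
    induction t using TensorProduct.induction_on with
    | zero => simp
    | add x y hx hy => rw [map_add]; exact Submodule.add_mem _ hx hy
    | tmul m n =>
      rw [LinearMap.lTensor_tmul]
      have hn : (n : N') ∈ I • (⊤ : Submodule R' N') := kN n.2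
      simp only [Submodule.coe_subtype]
      generalize (n : N') = n' at hn
      induction hn using Submodule.smul_induction_on' with
      | smul i hi x _ =>
        rw [TensorProduct.tmul_smul]
        exact Submodule.smul_mem_smul hi Submodule.mem_top
      | add x _ y _ hx hy =>
        rw [TensorProduct.tmul_add]; exact Submodule.add_mem _ hx hy
  · rintro _ ⟨t, rfl⟩
    induction t using TensorProduct.induction_on with
    | zero => simp
    | add x y hx hy => rw [map_add]; exact Submodule.add_mem _ hx hy
    | tmul m n =>
      rw [LinearMap.rTensor_tmul]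
      have hm : (m : M') ∈ I • (⊤ : Submodule R' M') := kM m.2
      simp only [Submodule.coe_subtype]
      generalize (m : M') = m' at hm
      induction hm using Submodule.smul_induction_on' with
      | smul i hi x _ =>
        rw [← TensorProduct.smul_tmul']
        exact Submodule.smul_mem_smul hi Submodule.mem_top
      | add x _ y _ hx hy =>
        rw [TensorProduct.add_tmul]; exact Submodule.add_mem _ hx hy

end Fermat.Agent.S25.LiftAbs
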