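/-
S25 / AlgSpec.lift (owner of the block: helper183).  TASK S25-LA3.
PROOF SKETCH of `invertible_of_lift`.  `P := M' ⊗[R'] N'` is projective.  Let
`γ : P →ₗ[R'] R := e ∘ (M ⊗[R'] N → M ⊗[R] N) ∘ TensorProduct.map βM βN`
(`TensorProduct.mapOfCompatibleSMul` / `equivOfCompatibleSMul`: it is bijective because `R' → R` is surjective).
`γ` is surjective and `ker γ ≤ I • ⊤` (`ker_map_le`).  Lift `γ` through the surjection `Algebra.linearMap R' R` by
projectivity: `ψ : P →ₗ[R'] R'`.  `range ψ ⊔ I • ⊤ = ⊤`, so `ψ` is surjective (`eq_top_of_sup_smul_top`).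
`ψ` splits (`R'` free): `σ` with `ψ ∘ σ = id`.  For `z ∈ K := ker ψ`: `γ z = 0`, so `z = ∑ iₐ • pₐ`, and
`z = z - σ (ψ z) = ∑ iₐ • (pₐ - σ (ψ pₐ)) ∈ I • K`; so `K = ⊥` (`eq_bot_of_le_smul`).  Hence `P ≃ₗ[R'] R'` and
`Module.Invertible.right`.
`exists_invertible_lift_alg`: apply `exists_projective_lift` to `N` and to `Module.Dual R N` (with
`Module.compHom` structure over `R'`), and `Module.Invertible.linearEquiv R N : Dual R N ⊗[R] N ≃ₗ[R] R`.
-/
import Fermat.Agent.S25.Alg.Lift.Nak
import Fermat.Agent.S25.Alg.Lift.Proj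
import Fermat.Agent.S25.Alg.Lift.KerMap

set_option autoImplicit false

universe u

open scoped TensorProduct

namespace Fermat.Agent.S25.LiftAbs

variable {R' R : Type u} [CommRing R'] [CommRing R] [Algebra R' R]

/-- abstract core: a linear map `ψ : P → R'` from a module `P` which is surjective modulo `I` and
whose kernel is contained in `I • ⊤` is bijective (`I ^ 2 = ⊥`). -/
theorem bijective_of_mod {I : Ideal R'} (hI : I ^ 2 = ⊥) {P : Type u} [AddCommGroup P]
    [Module R' P] (ψ : P →ₗ[R'] R') (hsurj : ∀ t : R', ∃ z : P, t - ψ z ∈ I)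
    (hker : LinearMap.ker ψ ≤ I • (⊤ : Submodule R' P)) : Function.Bijective ψ := by
  have hrange : LinearMap.range ψ = ⊤ := by
    apply eq_top_of_sup_smul_top hI
    rw [eq_top_iff]
    intro t _
    obtain ⟨z, hz⟩ := hsurj t
    have : t = ψ z + (t - ψ z) := by ring
    rw [this]
    refine Submodule.add_mem_sup ⟨z, rfl⟩ ?_
    rw [smul_eq_mul, Ideal.mul_top]
    exact hz
  have hs : Function.Surjective ψ := LinearMap.range_eq_top.mp hrange
  obtain ⟨p₀, hp₀⟩ := hs 1
  let σ : R' →ₗ[R'] P := LinearMap.toSpanSingleton R' P p₀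
  have hσ : ∀ t, ψ (σ t) = t := by
    intro t
    simp [σ, hp₀]
  let π : P →ₗ[R'] P := LinearMap.id - σ ∘ₗ ψ
  have hπK : ∀ p, π p ∈ LinearMap.ker ψ := by
    intro p
    simp [π, hσ]
  have hπz : ∀ z ∈ LinearMap.ker ψ, π z = z := by
    intro z hz
    have : ψ z = 0 := hz
    simp [π, this]
  have hK : LinearMap.ker ψ = ⊥ := by
    apply eq_bot_of_le_smul hI
    intro z hz
    have h1 : z ∈ I • (⊤ : Submodule R' P) := hker hz
    have h2 : π z ∈ Submodule.map π (I • (⊤ : Submodule R' P)) := Submodule.mem_map_of_mem h1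
    rw [Submodule.map_smul'', hπz z hz] at h2
    refine Submodule.smul_mono le_rfl ?_ h2
    rintro _ ⟨p, -, rfl⟩
    exact hπK p
  exact ⟨LinearMap.ker_eq_bot.mp hK, hs⟩

/-- LA3: a lift of an invertible module by a projective module is invertible. -/
theorem invertible_of_lift (hf : Function.Surjective (algebraMap R' R))
    (hI : RingHom.ker (algebraMap R' R) ^ 2 = ⊥)
    {M' N' M N : Type u} [AddCommGroup M'] [Module R' M'] [AddCommGroup N'] [Module R' N']
    [Module.Projective R' M'] [Module.Projective R' N']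
    [AddCommGroup M] [Module R M] [Module R' M] [IsScalarTower R' R M]
    [AddCommGroup N] [Module R N] [Module R' N] [IsScalarTower R' R N]
    (e : M ⊗[R] N ≃ₗ[R] R)
    (βM : M' →ₗ[R'] M) (βN : N' →ₗ[R'] N)
    (hM : Function.Surjective βM) (hN : Function.Surjective βN)
    (kM : LinearMap.ker βM ≤ RingHom.ker (algebraMap R' R) • (⊤ : Submodule R' M'))
    (kN : LinearMap.ker βN ≤ RingHom.ker (algebraMap R' R) • (⊤ : Submodule R' N')) :
    Module.Invertible R' N' := by
  have hcompat : TensorProduct.CompatibleSMul R' R M N := ⟨fun r m n => by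
    obtain ⟨r', rfl⟩ := hf r
    rw [algebraMap_smul, algebraMap_smul, TensorProduct.smul_tmul]⟩
  let c : M ⊗[R'] N ≃ₗ[R'] M ⊗[R] N := TensorProduct.equivOfCompatibleSMul R R' R' M N
  let γ : M' ⊗[R'] N' →ₗ[R'] R :=
    (e.toLinearMap.restrictScalars R') ∘ₗ c.toLinearMap ∘ₗ TensorProduct.map βM βN
  have hγsurj : Function.Surjective γ :=
    e.surjective.comp (c.surjective.comp (TensorProduct.map_surjective hM hN))
  have hγker : ∀ z, γ z = 0 → z ∈ RingHom.ker (algebraMap R' R) •
      (⊤ : Submodule R' (M' ⊗[R'] N')) := by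
    intro z hz
    apply ker_map_le _ βM βN hM hN kM kN
    rw [LinearMap.mem_ker]
    apply c.injective
    apply e.injective
    rw [map_zero, map_zero]
    exact hz
  obtain ⟨ψ, hψ⟩ := Module.projective_lifting_property (Algebra.linearMap R' R) γ hf
  have hψ' : ∀ z, algebraMap R' R (ψ z) = γ z := fun z => congrArg (fun f => f z) hψ
  have hbij : Function.Bijective ψ := by
    apply bijective_of_mod hI ψ
    · intro t
      obtain ⟨z, hz⟩ := hγsurj (algebraMap R' R t)
      refine ⟨z, ?_⟩
      rw [RingHom.mem_ker, map_sub, hψ', hz, sub_self]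
    · intro z hz
      apply hγker
      rw [← hψ', (LinearMap.mem_ker.mp hz), map_zero]
  exact Module.Invertible.right (LinearEquiv.ofBijective ψ hbij)

/-- LA4: invertible modules lift. -/
theorem exists_invertible_lift_alg (hf : Function.Surjective (algebraMap R' R))
    (hI : RingHom.ker (algebraMap R' R) ^ 2 = ⊥)
    (N : Type u) [AddCommGroup N] [Module R N] [Module R' N] [IsScalarTower R' R N]
    [Module.Invertible R N] :
    ∃ (N' : Type u) (_ : AddCommGroup N') (_ : Module R' N') (_ : Module.Invertible R' N')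
      (β : N' →ₗ[R'] N), Function.Surjective β ∧
        LinearMap.ker β ≤ RingHom.ker (algebraMap R' R) • (⊤ : Submodule R' N') := by
  obtain ⟨N', _, _, _, _, βN, hN, kN⟩ := exists_projective_lift hf hI N
  obtain ⟨M', _, _, _, _, βM, hM, kM⟩ := exists_projective_lift hf hI (Module.Dual R N)
  exact ⟨N', inferInstance, inferInstance,
    invertible_of_lift hf hI (Module.Invertible.linearEquiv R N) βM βN hM hN kM kN, βN, hN, kN⟩

end Fermat.Agent.S25.LiftAbs
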