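/-
S25 / AlgSpec.lift (owner of the block: helper183).  TASK S25-LA5.
PROOF SKETCH.  `exists_invertible_lift`: `letI := f.toAlgebra; letI := Module.compHom N f`, tower by
`IsScalarTower.of_algebraMap_smul fun _ _ => rfl`, apply `exists_invertible_lift_alg`, repackage `β` as a semilinear map.
`isBC_of_surjective`: `g` kills `ker β` (`Submodule.smul_induction_on`: `g (i • v) = f i • g v = 0`), so
`h n := g (Function.surjInv hβ n)` is well defined, additive, and `R`-linear (lift scalars through `hf`); uniqueness by
surjectivity of `β`.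
-/
import Fermat.Agent.S25.Alg.Lift.Inv

set_option autoImplicit false

universe u

open scoped TensorProduct

namespace Fermat.Agent.S25.LiftAbs

variable {R' R : Type u} [CommRing R'] [CommRing R]

/-- LA5: invertible modules lift, semilinear form. -/
theorem exists_invertible_lift (f : R' →+* R) (hf : Function.Surjective f)
    (hI : RingHom.ker f ^ 2 = ⊥)
    (N : Type u) [AddCommGroup N] [Module R N] [Module.Invertible R N] :
    ∃ (N' : Type u) (_ : AddCommGroup N') (_ : Module R' N') (_ : Module.Invertible R' N')
      (β : N' →ₛₗ[f] N), Function.Surjective β ∧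
        ∀ v, β v = 0 → v ∈ RingHom.ker f • (⊤ : Submodule R' N') := by
  letI : Algebra R' R := f.toAlgebra
  letI : Module R' N := Module.compHom N f
  haveI : IsScalarTower R' R N := IsScalarTower.of_algebraMap_smul fun _ _ => rfl
  obtain ⟨N', i1, i2, i3, β, hβ, hk⟩ := exists_invertible_lift_alg (R' := R') (R := R) hf hI N
  refine ⟨N', i1, i2, i3,
    { toFun := β, map_add' := β.map_add, map_smul' := fun r x => β.map_smul r x }, hβ, ?_⟩
  intro v hv
  exact hk (LinearMap.mem_ker.2 hv)

/-- LA6: a surjective semilinear map along a surjective ring hom whose kernel is `ker f • ⊤` is a base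
change (instance-free universal property, as in `Triple.BaseChange`). -/
theorem isBC_of_surjective (f : R' →+* R) (hf : Function.Surjective f)
    {N' N : Type u} [AddCommGroup N'] [Module R' N'] [AddCommGroup N] [Module R N]
    (β : N' →ₛₗ[f] N) (hβ : Function.Surjective β)
    (hk : ∀ v, β v = 0 → v ∈ RingHom.ker f • (⊤ : Submodule R' N'))
    (Q : Type u) [AddCommGroup Q] [Module R Q] (g : N' →ₛₗ[f] Q) :
    ∃! h : N →ₗ[R] Q, ∀ n, h (β n) = g n := by
  have hg0 : ∀ v, β v = 0 → g v = 0 := by
    intro v hv
    refine Submodule.smul_induction_on (hk v hv) ?_ ?_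
    · intro i hi n _
      rw [map_smulₛₗ, (RingHom.mem_ker).1 hi, zero_smul]
    · intro x y hx hy
      rw [map_add, hx, hy, add_zero]
  have hg : ∀ v w, β v = β w → g v = g w := by
    intro v w h
    have h1 : g (v - w) = 0 := hg0 _ (by rw [map_sub, h, sub_self])
    rw [map_sub, sub_eq_zero] at h1
    exact h1
  have hinv : ∀ n, β (Function.surjInv hβ n) = n := Function.surjInv_eq hβ
  refine ⟨{ toFun := fun n => g (Function.surjInv hβ n), map_add' := ?_, map_smul' := ?_ }, ?_, ?_⟩
  · intro x y
    rw [← map_add]
    exact hg _ _ (by rw [map_add, hinv, hinv, hinv])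
  · intro r x
    obtain ⟨r', rfl⟩ := hf r
    rw [RingHom.id_apply, ← map_smulₛₗ]
    exact hg _ _ (by rw [map_smulₛₗ, hinv, hinv])
  · intro n
    exact hg _ _ (hinv _)
  · intro h' hh'
    ext n
    obtain ⟨v, rfl⟩ := hβ n
    rw [hh']
    exact (hg _ _ (hinv _)).symm

end Fermat.Agent.S25.LiftAbs
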