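/-
S25 / AlgSpec.lift (owner: helper183).  The lifted triple.
-/
import Fermat.Agent.S25.AlgSpec
import Fermat.Agent.S25.Alg.Lift.Semi
import Fermat.Agent.S25.Alg.Lift.Glue
import Fermat.Agent.S25.Alg.Lift.RingsCompat
import Fermat.Agent.S25.Alg.Lift.RingsKer
import Fermat.Agent.S25.Alg.Lift.RingsLoc

set_option autoImplicit false

universe u

open scoped TensorProduct

namespace Fermat.Agent.S25.Lift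

open Triple LiftAbs

variable {k : Type u} [Field k] {𝔠 : CurveCharts k}
  {A A' : Type u} [CommRing A] [Algebra k A] [CommRing A'] [Algebra k A']

/-- A lift of the triple `T` (over `A`) along `π : A' → A`, with surjective comparison maps whose
kernels are generated by the kernel of `π`. -/
structure Data (π : A' →ₐ[k] A) (T : Triple 𝔠 A) where
  T' : Triple 𝔠 A'
  inv : T'.IsInvertible
  β₁ : T'.N₁ →ₛₗ[(𝔠.bc₁ π).toRingHom] T.N₁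
  β₂ : T'.N₂ →ₛₗ[(𝔠.bc₂ π).toRingHom] T.N₂
  β₁₂ : T'.N₁₂ →ₛₗ[(𝔠.bc₁₂ π).toRingHom] T.N₁₂
  comm₁ : ∀ n, β₁₂ (T'.ρ₁ n) = T.ρ₁ (β₁ n)
  comm₂ : ∀ n, β₁₂ (T'.ρ₂ n) = T.ρ₂ (β₂ n)
  surj₁ : Function.Surjective β₁
  surj₂ : Function.Surjective β₂
  surj₁₂ : Function.Surjective β₁₂
  ker₁ : ∀ v, β₁ v = 0 → v ∈ RingHom.ker (𝔠.bc₁ π).toRingHom • (⊤ : Submodule (𝔠.R₁ A') T'.N₁)
  ker₂ : ∀ v, β₂ v = 0 → v ∈ RingHom.ker (𝔠.bc₂ π).toRingHom • (⊤ : Submodule (𝔠.R₂ A') T'.N₂)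
  ker₁₂ : ∀ v, β₁₂ v = 0 →
    v ∈ RingHom.ker (𝔠.bc₁₂ π).toRingHom • (⊤ : Submodule (𝔠.R₁₂ A') T'.N₁₂)

theorem isLocElem₁ (T : Triple 𝔠 A) (hT : T.IsQC) :
    IsLocElem (𝔠.res₁ A).toRingHom (𝔠.xA A) T.ρ₁ := ⟨hT.surj₁, hT.inj₁⟩

theorem isLocElem₂ (T : Triple 𝔠 A) (hT : T.IsQC) :
    IsLocElem (𝔠.res₂ A).toRingHom (𝔠.yA A) T.ρ₂ := ⟨hT.surj₂, hT.inj₂⟩

/-- LT1: `N₁₂` of an invertible triple is invertible. -/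
theorem invertible_N₁₂ (T : Triple 𝔠 A) (hT : T.IsInvertible) :
    Module.Invertible (𝔠.R₁₂ A) T.N₁₂ := by
  have := hT.inv₁
  exact invertible_of_isLocElem (𝔠.res₁ A).toRingHom (𝔠.xA A) (isLocalization_res₁ 𝔠 A) T.ρ₁
    (isLocElem₁ T hT.toIsQC)

/-- LT2: existence of the lifted invertible triple. -/
theorem exists_data (π : A' →ₐ[k] A) (hπ : Function.Surjective π)
    (hI : RingHom.ker π.toRingHom ^ 2 = ⊥) (T : Triple 𝔠 A) (hT : T.IsInvertible) :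
    Nonempty (Data π T) := by
  have := hT.inv₁
  have := hT.inv₂
  have := invertible_N₁₂ T hT
  obtain ⟨N₁', _, _, i₁, β₁, hs₁, hk₁⟩ := exists_invertible_lift (𝔠.bc₁ π).toRingHom
    (bc₁_surjective 𝔠 π hπ) (ker_bc₁_sq 𝔠 π hπ hI) T.N₁
  obtain ⟨N₂', _, _, i₂, β₂, hs₂, hk₂⟩ := exists_invertible_lift (𝔠.bc₂ π).toRingHom
    (bc₂_surjective 𝔠 π hπ) (ker_bc₂_sq 𝔠 π hπ hI) T.N₂
  obtain ⟨N₁₂', _, _, i₁₂, β₁₂, hs₁₂, hk₁₂⟩ := exists_invertible_lift (𝔠.bc₁₂ π).toRingHom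
    (bc₁₂_surjective 𝔠 π hπ) (ker_bc₁₂_sq 𝔠 π hπ hI) T.N₁₂
  have hx : (𝔠.bc₁ π).toRingHom (𝔠.xA A') = 𝔠.xA A := bc₁_xA 𝔠 π
  have hy : (𝔠.bc₂ π).toRingHom (𝔠.yA A') = 𝔠.yA A := bc₂_yA 𝔠 π
  obtain ⟨ρ₁', hc₁, hl₁⟩ := exists_glue_lift (𝔠.res₁ A').toRingHom (𝔠.res₁ A).toRingHom
    (𝔠.bc₁ π).toRingHom (𝔠.bc₁₂ π).toRingHom (fun r => res₁_bc₁ 𝔠 π r)
    (bc₁₂_surjective 𝔠 π hπ) (ker_bc₁₂_sq 𝔠 π hπ hI) (𝔠.xA A') (isLocalization_res₁ 𝔠 A')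
    (by rw [hx]; exact isUnit_res₁_xA 𝔠 A) β₁ hs₁ β₁₂ hs₁₂ hk₁₂ T.ρ₁
    (by rw [hx]; exact isLocElem₁ T hT.toIsQC)
  obtain ⟨ρ₂', hc₂, hl₂⟩ := exists_glue_lift (𝔠.res₂ A').toRingHom (𝔠.res₂ A).toRingHom
    (𝔠.bc₂ π).toRingHom (𝔠.bc₁₂ π).toRingHom (fun r => res₂_bc₂ 𝔠 π r)
    (bc₁₂_surjective 𝔠 π hπ) (ker_bc₁₂_sq 𝔠 π hπ hI) (𝔠.yA A') (isLocalization_res₂ 𝔠 A')
    (by rw [hy]; exact isUnit_res₂_yA 𝔠 A) β₂ hs₂ β₁₂ hs₁₂ hk₁₂ T.ρ₂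
    (by rw [hy]; exact isLocElem₂ T hT.toIsQC)
  exact ⟨{
    T' := { N₁ := N₁', N₂ := N₂', N₁₂ := N₁₂', ρ₁ := ρ₁', ρ₂ := ρ₂' }
    inv := { surj₁ := hl₁.surj, inj₁ := hl₁.inj, surj₂ := hl₂.surj, inj₂ := hl₂.inj,
             inv₁ := i₁, inv₂ := i₂ }
    β₁ := β₁, β₂ := β₂, β₁₂ := β₁₂, comm₁ := hc₁, comm₂ := hc₂
    surj₁ := hs₁, surj₂ := hs₂, surj₁₂ := hs₁₂, ker₁ := hk₁, ker₂ := hk₂, ker₁₂ := hk₁₂ }⟩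

/-- LT3: the lifted triple has `T` as its base change. -/
theorem Data.isBC {π : A' →ₐ[k] A} (hπ : Function.Surjective π) {T : Triple 𝔠 A}
    (D : Data π T) : IsBC π D.T' T :=
  ⟨{ β₁ := D.β₁, β₂ := D.β₂, β₁₂ := D.β₁₂, comm₁ := D.comm₁, comm₂ := D.comm₂
     isBC₁ := fun Q _ _ f => isBC_of_surjective (𝔠.bc₁ π).toRingHom (bc₁_surjective 𝔠 π hπ)
       D.β₁ D.surj₁ D.ker₁ Q f
     isBC₂ := fun Q _ _ f => isBC_of_surjective (𝔠.bc₂ π).toRingHom (bc₂_surjective 𝔠 π hπ)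
       D.β₂ D.surj₂ D.ker₂ Q f
     isBC₁₂ := fun Q _ _ f => isBC_of_surjective (𝔠.bc₁₂ π).toRingHom (bc₁₂_surjective 𝔠 π hπ)
       D.β₁₂ D.surj₁₂ D.ker₁₂ Q f }⟩

end Fermat.Agent.S25.Lift
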