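/-
S25 / AlgSpec.lift (owner of the block: helper183).  TASK S25-LT4.
PROOF SKETCH.  Let `n` be the rigidifier of `T`, `n'` with `D.β₂ n' = n`.  Put `J' := ker (ev₀ A')`, `J := ker (ev₀ A)`,
`I₂ := ker (bc₂ π)`, `E := span {n'} ⊔ J' • ⊤ ≤ D.T'.N₂`.  Claim `E ⊔ I₂ • ⊤ = ⊤`, then `eq_top_of_sup_smul_top` (with
`ker_bc₂_sq`) gives `E = ⊤`, which is the statement (`Submodule.mem_sup`, `Submodule.mem_span_singleton`).
Claim: for `m'`, `β₂ m' - r • n ∈ J • ⊤`.  Every element of `J • ⊤` is `β₂` of an element of `J' • ⊤`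
(`Submodule.smul_induction_on`: for `j ∈ J` pick `j̃` with `bc₂ π j̃ = j`; `j' := j̃ - algebraMap A' _ (ev₀ A' j̃) ∈ J'` by
`ev₀_algebraMap`, and `bc₂ π j' = j` because `π (ev₀ A' j̃) = ev₀ A j = 0` (`ev₀_bc₂`, `bc₂_algebraMap`)).  So
`m' - r' • n' - w ∈ ker β₂ ⊆ I₂ • ⊤` (`D.ker₂`) with `w ∈ J' • ⊤`, `bc₂ π r' = r`.
-/
import Fermat.Agent.S25.Alg.Lift.Data

set_option autoImplicit false

universe u

open scoped TensorProduct

namespace Fermat.Agent.S25.Lift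

open Triple LiftAbs

variable {k : Type u} [Field k] {𝔠 : CurveCharts k}
  {A A' : Type u} [CommRing A] [Algebra k A] [CommRing A'] [Algebra k A']

/-- LT4: rigidity lifts. -/
theorem Data.isRigid {π : A' →ₐ[k] A} (hπ : Function.Surjective π)
    (hI : RingHom.ker π.toRingHom ^ 2 = ⊥) {T : Triple 𝔠 A} (D : Data π T) (hT : T.IsRigid) :
    D.T'.IsRigid := by
  obtain ⟨n, hn⟩ := hT
  obtain ⟨n', hn'⟩ := D.surj₂ n
  -- every element of `J • ⊤` is `β₂` of an element of `J' • ⊤`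
  have hlift : ∀ w ∈ (RingHom.ker (𝔠.ev₀ A).toRingHom) • (⊤ : Submodule (𝔠.R₂ A) T.N₂),
      ∃ w' ∈ (RingHom.ker (𝔠.ev₀ A').toRingHom) • (⊤ : Submodule (𝔠.R₂ A') D.T'.N₂),
        D.β₂ w' = w := by
    intro w hw
    induction hw using Submodule.smul_induction_on' with
    | smul j hj m _ =>
      obtain ⟨jt, hjt⟩ := bc₂_surjective 𝔠 π hπ j
      obtain ⟨m', hm'⟩ := D.surj₂ m
      refine ⟨(jt - algebraMap A' (𝔠.R₂ A') (𝔠.ev₀ A' jt)) • m',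
        Submodule.smul_mem_smul ?_ Submodule.mem_top, ?_⟩
      · change 𝔠.ev₀ A' (jt - algebraMap A' (𝔠.R₂ A') (𝔠.ev₀ A' jt)) = 0
        rw [map_sub, ev₀_algebraMap, sub_self]
      · have h0 : 𝔠.ev₀ A j = 0 := hj
        have h1 : 𝔠.bc₂ π (jt - algebraMap A' (𝔠.R₂ A') (𝔠.ev₀ A' jt)) = j := by
          rw [map_sub, bc₂_algebraMap, ← ev₀_bc₂, hjt, h0, map_zero, sub_zero]
        rw [map_smulₛₗ, hm']
        change (𝔠.bc₂ π (jt - algebraMap A' (𝔠.R₂ A') (𝔠.ev₀ A' jt))) • m = j • m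
        rw [h1]
    | add x _ y _ hx hy =>
      obtain ⟨x', hx', rfl⟩ := hx
      obtain ⟨y', hy', rfl⟩ := hy
      exact ⟨x' + y', Submodule.add_mem _ hx' hy', map_add _ _ _⟩
  have htop : (Submodule.span (𝔠.R₂ A') {n'} ⊔
      (RingHom.ker (𝔠.ev₀ A').toRingHom) • (⊤ : Submodule (𝔠.R₂ A') D.T'.N₂)) = ⊤ := by
    apply eq_top_of_sup_smul_top (ker_bc₂_sq 𝔠 π hπ hI)
    rw [eq_top_iff]
    intro m' _
    obtain ⟨r, hr⟩ := hn (D.β₂ m')
    obtain ⟨r', hr'⟩ := bc₂_surjective 𝔠 π hπ r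
    obtain ⟨w, hw, hww⟩ := hlift _ hr
    have hker : D.β₂ (m' - r' • n' - w) = 0 := by
      rw [map_sub, map_sub, map_smulₛₗ, hn', hww]
      change D.β₂ m' - (𝔠.bc₂ π r') • n - (D.β₂ m' - r • n) = 0
      rw [hr', sub_self]
    have h3 := D.ker₂ _ hker
    have : m' = (r' • n' + w) + (m' - r' • n' - w) := by abel
    rw [this]
    refine Submodule.add_mem_sup (Submodule.add_mem_sup ?_ hw) h3
    exact Submodule.smul_mem _ _ (Submodule.mem_span_singleton_self _)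
  refine ⟨n', fun m => ?_⟩
  have hm : m ∈ (Submodule.span (𝔠.R₂ A') {n'} ⊔
      (RingHom.ker (𝔠.ev₀ A').toRingHom) • (⊤ : Submodule (𝔠.R₂ A') D.T'.N₂)) := by
    rw [htop]; exact Submodule.mem_top
  obtain ⟨a, ha, b, hb, rfl⟩ := Submodule.mem_sup.mp hm
  obtain ⟨r, rfl⟩ := Submodule.mem_span_singleton.mp ha
  exact ⟨r, by rwa [add_sub_cancel_left]⟩

end Fermat.Agent.S25.Lift
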