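/-
S25 / AlgSpec.lift (owner of the block: helper183).  TASK S25-LA1.
Finitely generated projective modules lift along a surjection with square-zero kernel.
PROOF SKETCH.  `Module.Finite.exists_fin'` gives a surjection `r : (Fin n → R) →ₗ[R] N`;
`Module.projective_lifting_property` a section `s`; `E := LinearMap.toMatrix' (s ∘ₗ r)` is idempotent.
`F := (algebraMap R' R).mapMatrix` is a surjective ring hom whose kernel consists of matrices with entries
in `I = ker`, so `x * x = 0` there (entries in `I ^ 2 = ⊥`).
`exists_isIdempotentElem_eq_of_ker_isNilpotent` gives an idempotent `E'` with `F E' = E`.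
`N' := LinearMap.range (Matrix.toLin' E')` (finite; projective by `Module.Projective.of_split`).
`β v := r (fun i => algebraMap R' R (v i))`; use `RingHom.map_mulVec`.  Surjective: lift `s n` entrywise to `w`,
take `E' *ᵥ w`.  Kernel: `β v = 0` gives `c v = E.mulVec (c v) = s (r (c v)) = 0`, so all `v i ∈ I` and
`v = E' *ᵥ v = ∑ j, v j • (E' *ᵥ Pi.single j 1)`.
-/
import Mathlib

set_option autoImplicit false

universe u

open scoped TensorProduct

namespace Fermat.Agent.S25.LiftAbs

variable {R' R : Type u} [CommRing R'] [CommRing R] [Algebra R' R]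

/-- LA1: finitely generated projective modules lift (idempotent matrices). -/
theorem exists_projective_lift (hf : Function.Surjective (algebraMap R' R))
    (hI : RingHom.ker (algebraMap R' R) ^ 2 = ⊥)
    (N : Type u) [AddCommGroup N] [Module R N] [Module R' N] [IsScalarTower R' R N]
    [Module.Finite R N] [Module.Projective R N] :
    ∃ (N' : Type u) (_ : AddCommGroup N') (_ : Module R' N') (_ : Module.Finite R' N')
      (_ : Module.Projective R' N') (β : N' →ₗ[R'] N), Function.Surjective β ∧
        LinearMap.ker β ≤ RingHom.ker (algebraMap R' R) • (⊤ : Submodule R' N') := by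
  classical
  obtain ⟨n, r, hr⟩ := Module.Finite.exists_fin' R N
  obtain ⟨s, hs⟩ := Module.projective_lifting_property r LinearMap.id hr
  have hrs : ∀ m : N, r (s m) = m := fun m => LinearMap.congr_fun hs m
  set E : Matrix (Fin n) (Fin n) R := LinearMap.toMatrix' (s ∘ₗ r) with hE
  have hEv : ∀ v : Fin n → R, E.mulVec v = s (r v) := fun v => by
    rw [hE, LinearMap.toMatrix'_mulVec]; rfl
  have hEidem : IsIdempotentElem E := by
    show E * E = E
    rw [hE, ← LinearMap.toMatrix'_comp]
    congr 1
    refine LinearMap.ext fun v => ?_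
    simp only [LinearMap.comp_apply, hrs]
  set F : Matrix (Fin n) (Fin n) R' →+* Matrix (Fin n) (Fin n) R :=
    (algebraMap R' R).mapMatrix with hF
  have hker : ∀ x ∈ RingHom.ker F, IsNilpotent x := by
    intro x hx
    refine ⟨2, ?_⟩
    have hxI : ∀ i j, x i j ∈ RingHom.ker (algebraMap R' R) := fun i j => by
      have := congrArg (fun M : Matrix (Fin n) (Fin n) R => M i j) (RingHom.mem_ker.1 hx)
      simpa [hF, RingHom.mapMatrix_apply, Matrix.map_apply] using this
    rw [pow_two]
    ext i j
    rw [Matrix.mul_apply, Matrix.zero_apply]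
    apply Finset.sum_eq_zero
    intro l _
    have h2 : x i l * x l j ∈ RingHom.ker (algebraMap R' R) ^ 2 := by
      rw [pow_two]; exact Ideal.mul_mem_mul (hxI i l) (hxI l j)
    rw [hI] at h2
    exact h2
  choose g hg using hf
  have hErange : E ∈ F.range :=
    ⟨Matrix.of fun i j => g (E i j), by ext i j; simp [hF, hg]⟩
  obtain ⟨E', hE'idem, hFE'⟩ :=
    exists_isIdempotentElem_eq_of_ker_isNilpotent F hker E hErange hEidem
  set T : (Fin n → R') →ₗ[R'] (Fin n → R') := Matrix.toLin' E' with hT
  have hTT : ∀ v, T (T v) = T v := fun v => by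
    have : T ∘ₗ T = T := by rw [hT, ← Matrix.toLin'_mul, hE'idem.eq]
    exact LinearMap.congr_fun this v
  set c : (Fin n → R') →ₗ[R'] (Fin n → R) := (Algebra.linearMap R' R).compLeft (Fin n) with hc
  have hcv : ∀ (v : Fin n → R') (i : Fin n), c v i = algebraMap R' R (v i) := fun v i => rfl
  have hcT : ∀ v : Fin n → R', c (T v) = E.mulVec (c v) := by
    intro v
    ext i
    rw [hcv, hT, Matrix.toLin'_apply, RingHom.map_mulVec, ← hFE']
    rfl
  have hfin : Module.Finite R' (LinearMap.range T) := Module.Finite.range T
  have hproj : Module.Projective R' (LinearMap.range T) := by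
    refine Module.Projective.of_split (LinearMap.range T).subtype T.rangeRestrict ?_
    ext ⟨x, y, rfl⟩ : 1
    exact Subtype.ext (hTT y)
  let β : LinearMap.range T →ₗ[R'] N :=
    (r.restrictScalars R') ∘ₗ c ∘ₗ (LinearMap.range T).subtype
  have hβ : ∀ x : LinearMap.range T, β x = r (c x.1) := fun x => rfl
  refine ⟨LinearMap.range T, inferInstance, inferInstance, hfin, hproj, β, ?_, ?_⟩
  · intro m
    refine ⟨⟨T (fun i => g (s m i)), LinearMap.mem_range_self _ _⟩, ?_⟩
    rw [hβ, hcT, hEv]
    have : c (fun i => g (s m i)) = s m := by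
      ext i; rw [hcv, hg]
    rw [this, hrs, hrs]
  · rintro ⟨v, y, rfl⟩ hx
    rw [LinearMap.mem_ker, hβ] at hx
    have h0 : c (T y) = 0 := by
      have h1 : c (T y) = E.mulVec (c (T y)) := by
        conv_lhs => rw [← hTT y]
        exact hcT (T y)
      rw [h1, hEv, hx, map_zero]
    have hI' : ∀ i, T y i ∈ RingHom.ker (algebraMap R' R) := fun i => by
      rw [RingHom.mem_ker, ← hcv, h0]; rfl
    have hx' : (⟨T y, LinearMap.mem_range_self _ _⟩ : LinearMap.range T) = T.rangeRestrict (T y) :=
      Subtype.ext (hTT y).symm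
    rw [hx', LinearMap.pi_apply_eq_sum_univ]
    exact Submodule.sum_mem _ fun i _ => Submodule.smul_mem_smul (hI' i) Submodule.mem_top

end Fermat.Agent.S25.LiftAbs
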